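import Fermat.Agent.FFPlaces.Global
import Fermat.Prelude.Def_AlgebraicCurve_IsCurveOver
import Fermat.Agent.Differentials.Hurwitz

/-!
# A function field of one variable is a curve

Differentials on a function field of one variable over an algebraically closed field of
characteristic zero: `Ω = F dt` and the instance `IsCurveOver`.
-/

set_option autoImplicit false

noncomputable section

open AlgebraicCurve Polynomial IntermediateField KaehlerDifferential WithZero

namespace Fermat.Agent.FFPlaces

variable {K F : Type*} [Field K] [Field F] [Algebra K F] [CharZero K]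

theorem span_D_eq_top (hF : FiniteOverGen K F) {t : F} (ht : Transcendental K t) :
    Submodule.span F {KaehlerDifferential.D K F t} = ⊤ := by
  have := hF t ht
  have := charZero_adjoin (K := K) t
  set S := Submodule.span F {KaehlerDifferential.D K F t} with hS
  have hpoly : ∀ r : K[X], KaehlerDifferential.D K F (Polynomial.aeval t r) ∈ S := by
    intro r
    rw [Derivation.map_aeval]
    exact S.smul_mem _ (Submodule.subset_span rfl)
  have hbase : ∀ c : K⟮t⟯, KaehlerDifferential.D K F (c : F) ∈ S := by
    intro c
    obtain ⟨r, s, hc⟩ := (IntermediateField.mem_adjoin_simple_iff K (c : F)).mp c.2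
    rw [hc, Derivation.leibniz_div]
    exact S.smul_mem _ (S.sub_mem (S.smul_mem _ (hpoly r)) (S.smul_mem _ (hpoly s)))
  rw [eq_top_iff, ← KaehlerDifferential.span_range_derivation K F, Submodule.span_le]
  rintro _ ⟨f, rfl⟩
  set μ := minpoly K⟮t⟯ f with hμ
  have hsep : Polynomial.aeval f μ.derivative ≠ 0 :=
    (Algebra.IsSeparable.isSeparable K⟮t⟯ f).aeval_derivative_ne_zero (minpoly.aeval _ f)
  have h0 : KaehlerDifferential.D K F (Polynomial.aeval f μ) = 0 := by
    rw [minpoly.aeval, map_zero]
  have hsum : ∀ p : K⟮t⟯[X], KaehlerDifferential.D K F (Polynomial.aeval f p)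
      - Polynomial.aeval f p.derivative • KaehlerDifferential.D K F f ∈ S := by
    intro p
    induction p using Polynomial.induction_on' with
    | add p q hp hq =>
      have := S.add_mem hp hq
      rw [map_add, map_add, map_add, map_add, add_smul]
      convert this using 1
      abel
    | monomial n a =>
      rw [Polynomial.aeval_monomial, Polynomial.derivative_monomial, Polynomial.aeval_monomial,
        Derivation.leibniz, Derivation.leibniz_pow, map_mul, map_natCast]
      have := S.smul_mem (f ^ n) (hbase a)
      convert this using 1
      show _ = f ^ n • KaehlerDifferential.D K F (algebraMap K⟮t⟯ F a)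
      module
  have := hsum μ
  rw [h0, zero_sub, neg_mem_iff, S.smul_mem_iff hsep] at this
  exact this

/-- The differentials of a function field in one variable are one-dimensional. -/
theorem finrank_kaehler [IsAlgClosed K] (hF : FiniteOverGen K F) (v : Place K F) :
    Module.finrank F Ω[F⁄K] = 1 := by
  obtain ⟨π, hπ0, hπ⟩ := exists_uniformizer v
  have hne : KaehlerDifferential.D K F π ≠ 0 :=
    Differentials.D_ne_zero_of_ord_ne_zero (deg_eq_one' hF v) (a := 0)
      (by rw [map_zero, sub_zero, hπ]; omega)
  rw [← finrank_top F Ω[F⁄K],
    ← span_D_eq_top hF (transcendental_of_ord_ne_zero v (by omega : v.ord π ≠ 0))]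
  exact finrank_span_singleton hne

/-- A transcendental function has a zero. -/
theorem exists_place (hF : FiniteOverGen K F) [IsAlgClosed K] {t : F} (ht : Transcendental K t) :
    ∃ v : Place K F, 0 < v.ord t := by
  have := pos_fiber hF ht
  let := Fintype.ofFinite {v : Place K F // 0 < v.ord t}
  have h := sum_ord_pos hF ht
  by_contra hne
  have : IsEmpty {v : Place K F // 0 < v.ord t} := ⟨fun v => hne ⟨v.1, v.2⟩⟩
  have := hF t ht
  rw [Fintype.sum_empty] at h
  have := Module.finrank_pos (R := K⟮t⟯) (M := F)
  omega

/-- A function field of one variable is a curve over `K`. -/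
theorem isCurveOver [IsAlgClosed K] (hF : FiniteOverGen K F) {t : F} (ht : Transcendental K t) :
    IsCurveOver K F :=
  { hasPrincipalDivisors hF with
    finiteResidue := fun v => Module.finite_of_finrank_pos (by
      have := deg_eq_one' hF v
      rw [Place.deg] at this
      omega)
    kaehler_free_rank_one := by
      obtain ⟨v, -⟩ := exists_place hF ht
      exact ⟨inferInstance, finrank_kaehler hF v⟩ }

end Fermat.Agent.FFPlaces
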