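import Fermat.Agent.FFPlaces.Fiber
import Mathlib.FieldTheory.IntermediateField.Adjoin.Basic
import Mathlib.FieldTheory.Perfect
import Mathlib.Algebra.Polynomial.Bivariate
import Mathlib.RingTheory.Localization.Integral

/-!
# Degree of principal divisors

Global consequences for a function field of one variable: finiteness of supports, degree one
places, and `deg div f = 0`.
-/

set_option autoImplicit false

noncomputable section

open AlgebraicCurve Polynomial IntermediateField
open scoped Polynomial.Bivariate

namespace Fermat.Agent.FFPlaces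

variable {K F : Type*} [Field K] [Field F] [Algebra K F]

/-- `F` is finite over `K(t)` for every transcendental `t`. -/
def FiniteOverGen (K F : Type*) [Field K] [Field F] [Algebra K F] : Prop :=
  ∀ t : F, Transcendental K t → FiniteDimensional K⟮t⟯ F

/-- `F` as a `K[X]`-algebra through `X ↦ t`. -/
@[reducible] def genAlgebra (t : F) : Algebra K[X] F := (Polynomial.aeval t).toRingHom.toAlgebra

/-- `K⟮t⟯` as a `K[X]`-algebra through `X ↦ t`. -/
@[reducible] def genAlgebraField (t : F) : Algebra K[X] K⟮t⟯ :=
  (Polynomial.aeval (AdjoinSimple.gen K t)).toRingHom.toAlgebra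

/-- `K → K[X] → F` is a scalar tower for `X ↦ t`. -/
theorem genAlgebra_tower_base (t : F) :
    letI := genAlgebra (K := K) t
    IsScalarTower K K[X] F := by
  let := genAlgebra (K := K) t
  exact IsScalarTower.of_algebraMap_eq fun a => (Polynomial.aeval_C t a).symm

/-- `K[X] → K(t) → F` is a scalar tower. -/
theorem genAlgebra_tower (t : F) :
    letI := genAlgebra (K := K) t
    letI := genAlgebraField (K := K) t
    IsScalarTower K[X] K⟮t⟯ F := by
  let := genAlgebra (K := K) t
  let := genAlgebraField (K := K) t
  refine IsScalarTower.of_algebraMap_eq fun p => ?_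
  show Polynomial.aeval t p = algebraMap K⟮t⟯ F (Polynomial.aeval (AdjoinSimple.gen K t) p)
  rw [← Polynomial.aeval_algebraMap_apply, AdjoinSimple.algebraMap_gen]

/-- For transcendental `t`, `K(t)` is the fraction field of `K[X]`. -/
theorem genAlgebra_isFractionRing {t : F} (ht : Transcendental K t) :
    letI := genAlgebraField (K := K) t
    IsFractionRing K[X] K⟮t⟯ := by
  let := genAlgebraField (K := K) t
  have hinj : Function.Injective (algebraMap K[X] K⟮t⟯) := by
    intro p q h
    apply (transcendental_iff_injective.mp ht)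
    have h' := congrArg (algebraMap K⟮t⟯ F) h
    simp only [RingHom.algebraMap_toAlgebra, AlgHom.toRingHom_eq_coe, RingHom.coe_coe,
      ← Polynomial.aeval_algebraMap_apply, AdjoinSimple.algebraMap_gen] at h'
    exact h'
  have : FaithfulSMul K[X] K⟮t⟯ := (faithfulSMul_iff_algebraMap_injective _ _).mpr hinj
  refine IsFractionRing.of_field K[X] K⟮t⟯ fun z => ?_
  obtain ⟨r, s, hz⟩ := (IntermediateField.mem_adjoin_simple_iff K (z : F)).mp z.2
  refine ⟨r, s, Subtype.ext ?_⟩
  rw [hz]
  show _ = algebraMap K⟮t⟯ F (_ / _)
  rw [map_div₀]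
  simp only [RingHom.algebraMap_toAlgebra, AlgHom.toRingHom_eq_coe, RingHom.coe_coe,
    ← Polynomial.aeval_algebraMap_apply, AdjoinSimple.algebraMap_gen]

theorem isAlgebraic_exchange {x t : F} (hx : Transcendental K x) (ht : Transcendental K t)
    (h : IsAlgebraic K⟮x⟯ t) : IsAlgebraic K⟮t⟯ x := by
  have key : ∀ u w : F, Transcendental K u →
      (IsAlgebraic K⟮u⟯ w ↔ ∃ p : K[X][Y], p ≠ 0 ∧ Polynomial.aevalAeval u w p = 0) := by
    intro u w hu
    let := genAlgebra (K := K) u
    let := genAlgebraField (K := K) u
    have := genAlgebra_tower_base (K := K) u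
    have := genAlgebra_tower (K := K) u
    have := genAlgebra_isFractionRing hu
    rw [← IsFractionRing.isAlgebraic_iff K[X] K⟮u⟯ F]
    have hev : ∀ p : K[X][Y], Polynomial.aeval w p = Polynomial.aevalAeval u w p := by
      intro p
      induction p using Polynomial.induction_on' with
      | add p q hp hq => rw [map_add, map_add, hp, hq]
      | monomial n a =>
        rw [← Polynomial.C_mul_X_pow_eq_monomial, map_mul, map_mul, map_pow, map_pow,
          Polynomial.aeval_C, Polynomial.aeval_X, Polynomial.aevalAeval_C,
          Polynomial.aevalAeval_Y]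
        rfl
    constructor
    · rintro ⟨p, hp, h0⟩
      exact ⟨p, hp, by rw [← hev, h0]⟩
    · rintro ⟨p, hp, h0⟩
      exact ⟨p, hp, by rw [hev, h0]⟩
  obtain ⟨p, hp, h0⟩ := (key x t hx).mp h
  refine (key t x ht).mpr ⟨Bivariate.swap p, by simpa using hp, ?_⟩
  rw [Bivariate.aevalAeval_swap, h0]

/-- Finiteness over one transcendental generator gives finiteness over all. -/
theorem FiniteOverGen.of_finiteDimensional {x : F} (hx : Transcendental K x)
    [FiniteDimensional K⟮x⟯ F] : FiniteOverGen K F := by
  intro t ht
  have halg : IsAlgebraic K⟮t⟯ x :=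
    isAlgebraic_exchange hx ht (Algebra.IsAlgebraic.isAlgebraic (R := K⟮x⟯) t)
  let M : IntermediateField K⟮t⟯ F := K⟮t⟯⟮x⟯
  have : FiniteDimensional K⟮t⟯ M := adjoin.finiteDimensional halg.isIntegral
  have hle : K⟮x⟯ ≤ M.restrictScalars K := by
    rw [adjoin_simple_le_iff]
    exact IntermediateField.mem_adjoin_simple_self _ x
  let : Algebra K⟮x⟯ M := (IntermediateField.inclusion hle).toRingHom.toAlgebra
  have : IsScalarTower K⟮x⟯ M F := IsScalarTower.of_algebraMap_eq fun _ => rfl
  have : FiniteDimensional M F := Module.Finite.of_restrictScalars_finite K⟮x⟯ M F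
  exact Module.Finite.trans M F

variable [CharZero K]

/-- `K(t)` has characteristic zero. -/
theorem charZero_adjoin (t : F) : CharZero K⟮t⟯ :=
  charZero_of_injective_algebraMap (algebraMap K K⟮t⟯).injective

/-- A transcendental function has finitely many zeros. -/
theorem pos_fiber (hF : FiniteOverGen K F) {t : F} (ht : Transcendental K t) :
    Finite {v : Place K F // 0 < v.ord t} := by
  let := genAlgebra (K := K) t
  let := genAlgebraField (K := K) t
  have := genAlgebra_tower_base (K := K) t
  have := genAlgebra_tower (K := K) t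
  have := genAlgebra_isFractionRing ht
  have := hF t ht
  have := charZero_adjoin (K := K) t
  have := ring₀_isDedekind K F K⟮t⟯
  have := ring₀_isFractionRing K F K⟮t⟯
  have := ring₀_finite K F K⟮t⟯
  have h : (tOf K F) = t := Polynomial.aeval_X t
  have := finite_pos K F K⟮t⟯
  rwa [h] at this

/-- The orders of the zeros of `t` sum to `[F : K(t)]`. -/
theorem sum_ord_pos [IsAlgClosed K] (hF : FiniteOverGen K F) {t : F} (ht : Transcendental K t)
    [Fintype {v : Place K F // 0 < v.ord t}] :
    ∑ v : {v : Place K F // 0 < v.ord t}, v.1.ord t = (Module.finrank K⟮t⟯ F : ℤ) := by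
  let := genAlgebra (K := K) t
  let := genAlgebraField (K := K) t
  have := genAlgebra_tower_base (K := K) t
  have := genAlgebra_tower (K := K) t
  have := genAlgebra_isFractionRing ht
  have := hF t ht
  have := charZero_adjoin (K := K) t
  have := ring₀_isDedekind K F K⟮t⟯
  have := ring₀_isFractionRing K F K⟮t⟯
  have := ring₀_finite K F K⟮t⟯
  have h : (tOf K F) = t := Polynomial.aeval_X t
  let e : {v : Place K F // 0 < v.ord (tOf K F)} ≃ {v : Place K F // 0 < v.ord t} :=
    Equiv.subtypeEquivRight (fun v => by rw [h])
  let := Fintype.ofEquiv _ e.symm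
  rw [← sum_ord_tOf K F K⟮t⟯, ← e.sum_comp]
  exact Finset.sum_congr rfl fun v _ => (congrArg v.1.ord h).symm

/-- Every place has degree one. -/
theorem deg_eq_one' [IsAlgClosed K] (hF : FiniteOverGen K F) (v : Place K F) : v.deg = 1 := by
  obtain ⟨t, -, hπ⟩ := exists_uniformizer v
  have ht : Transcendental K t := transcendental_of_ord_ne_zero v (by omega)
  let := genAlgebra (K := K) t
  let := genAlgebraField (K := K) t
  have := genAlgebra_tower_base (K := K) t
  have := genAlgebra_tower (K := K) t
  have := genAlgebra_isFractionRing ht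
  have := hF t ht
  have := charZero_adjoin (K := K) t
  have := ring₀_isDedekind K F K⟮t⟯
  have := ring₀_isFractionRing K F K⟮t⟯
  have := ring₀_finite K F K⟮t⟯
  have h : (tOf K F) = t := Polynomial.aeval_X t
  exact deg_eq_one K F v (by rw [h]; omega)

/-- A regular function is congruent to a constant at every place. -/
theorem exists_residue [IsAlgClosed K] (hF : FiniteOverGen K F) (v : Place K F) {f : F}
    (hf : 0 ≤ v.ord f) : ∃ c : K, f = algebraMap K F c ∨ 0 < v.ord (f - algebraMap K F c) := by
  obtain ⟨t, -, hπ⟩ := exists_uniformizer v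
  have ht : Transcendental K t := transcendental_of_ord_ne_zero v (by omega)
  let := genAlgebra (K := K) t
  let := genAlgebraField (K := K) t
  have := genAlgebra_tower_base (K := K) t
  have := genAlgebra_tower (K := K) t
  have := genAlgebra_isFractionRing ht
  have := hF t ht
  have := charZero_adjoin (K := K) t
  have := ring₀_isDedekind K F K⟮t⟯
  have := ring₀_isFractionRing K F K⟮t⟯
  have := ring₀_finite K F K⟮t⟯
  have h : (tOf K F) = t := Polynomial.aeval_X t
  exact exists_ord_sub_pos K F v (by rw [h]; omega) hf

omit [CharZero K] in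
/-- `K(t⁻¹) = K(t)`. -/
theorem adjoin_inv (t : F) : K⟮t⁻¹⟯ = K⟮t⟯ := by
  refine le_antisymm ?_ ?_
  · rw [adjoin_simple_le_iff]; exact inv_mem (mem_adjoin_simple_self K t)
  · rw [adjoin_simple_le_iff]
    simpa using inv_mem (mem_adjoin_simple_self K t⁻¹)

/-- A function has finitely many zeros and poles. -/
theorem support_finite (hF : FiniteOverGen K F) (f : F) :
    {v : Place K F | v.ord f ≠ 0}.Finite := by
  by_cases ht : Transcendental K f
  · have hti : Transcendental K f⁻¹ := fun h => ht (by simpa using h.inv)
    have := pos_fiber hF ht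
    have := pos_fiber hF hti
    have h1 : {v : Place K F | 0 < v.ord f}.Finite := Set.finite_coe_iff.mp (pos_fiber hF ht)
    have h2 : {v : Place K F | 0 < v.ord f⁻¹}.Finite := Set.finite_coe_iff.mp (pos_fiber hF hti)
    refine (h1.union h2).subset fun v hv => ?_
    simp only [Set.mem_ofPred_eq, Set.mem_union, Place.ord_inv] at hv ⊢
    omega
  · convert Set.finite_empty (α := Place K F)
    refine Set.eq_empty_iff_forall_notMem.mpr fun v hv => ht ?_
    exact transcendental_of_ord_ne_zero v hv

/-- A principal divisor has degree zero. -/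
theorem degree_divisorOf [IsAlgClosed K] (hF : FiniteOverGen K F) {f : F} (_hf : f ≠ 0)
    (D : Divisor K F) (hD : ∀ v, D v = v.ord f) : Divisor.degree D = 0 := by
  have hdeg : Divisor.degree D = ∑ v ∈ D.support, v.ord f := by
    rw [Divisor.degree, Finsupp.liftAddHom_apply, Finsupp.sum]
    exact Finset.sum_congr rfl fun v _ => by
      simp [deg_eq_one' hF v, hD]
  rw [hdeg]
  by_cases ht : Transcendental K f
  · have hti : Transcendental K f⁻¹ := fun h => ht (by simpa using h.inv)
    have := pos_fiber hF ht
    have := pos_fiber hF hti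
    let := Fintype.ofFinite {v : Place K F // 0 < v.ord f}
    let := Fintype.ofFinite {v : Place K F // 0 < v.ord f⁻¹}
    rw [← Finset.sum_filter_add_sum_filter_not D.support (fun v => 0 < v.ord f)]
    have h1 : ∑ v ∈ D.support.filter (fun v => 0 < v.ord f), v.ord f
        = (Module.finrank K⟮f⟯ F : ℤ) := by
      rw [← sum_ord_pos hF ht]
      refine Finset.sum_subtype _ (fun v => ?_) _
      simp only [Finset.mem_filter, Finsupp.mem_support_iff, hD, and_iff_right_iff_imp]
      omega
    have h2 : ∑ v ∈ D.support.filter (fun v => ¬ 0 < v.ord f), v.ord f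
        = -(Module.finrank K⟮f⁻¹⟯ F : ℤ) := by
      rw [← sum_ord_pos hF hti, ← Finset.sum_neg_distrib]
      have e : ∀ v : Place K F, -v.ord f⁻¹ = v.ord f := fun v => by
        rw [v.ord_inv, neg_neg]
      simp only [e]
      refine Finset.sum_subtype _ (fun v => ?_) _
      simp only [Finset.mem_filter, Finsupp.mem_support_iff, hD, Place.ord_inv]
      omega
    rw [h1, h2, adjoin_inv]
    exact add_neg_cancel _
  · refine Finset.sum_eq_zero fun v _ => ?_
    by_contra hv
    exact ht (transcendental_of_ord_ne_zero v hv)

/-- Every nonzero function has a principal divisor. -/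
theorem hasPrincipalDivisors [IsAlgClosed K] (hF : FiniteOverGen K F) :
    HasPrincipalDivisors K F := by
  refine ⟨fun f hf => ?_⟩
  let D : Divisor K F := Finsupp.ofSupportFinite (fun v => v.ord f) (support_finite hF f)
  exact ⟨D, fun v => rfl, degree_divisorOf hF hf D fun v => rfl⟩

end Fermat.Agent.FFPlaces
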