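import Fermat.Prelude.Def_AlgebraicCurve_DivisorClassGroup

/-!
# Places of a function field and their order functions

Elementary facts about `AlgebraicCurve.Place` and its normalised order function `ord`: the
ultrametric inequality, constants have order zero, elements of nonzero order are transcendental,
and a place is determined by its nonnegative elements.
-/

set_option autoImplicit false

noncomputable section

open WithZero AlgebraicCurve IsDedekindDomain

namespace Fermat.Agent.FFPlaces

variable {K F : Type*} [Field K] [Field F] [Algebra K F] (v : Place K F)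

/-- The valuation of a nonzero function is `exp (-ord)`. -/
theorem adicValuation_eq_exp {f : F} (hf : f ≠ 0) :
    v.adicValuation f = exp (-v.ord f) := by
  unfold Place.ord
  rw [neg_neg, exp_log (v.adicValuation_ne_zero hf)]

/-- Every place has a uniformiser. -/
theorem exists_uniformizer : ∃ π : F, π ≠ 0 ∧ v.ord π = 1 := by
  obtain ⟨π, hπ⟩ := IsDiscreteValuationRing.exists_irreducible v.toValuationSubring
  exact ⟨π, by simpa using hπ.ne_zero, v.ord_coe_irreducible hπ⟩

/-- A nonzero function is in the valuation ring exactly when its order is nonnegative. -/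
theorem mem_iff_ord_nonneg {f : F} (hf : f ≠ 0) :
    f ∈ v.toValuationSubring ↔ 0 ≤ v.ord f := by
  obtain ⟨π, hπ⟩ := IsDiscreteValuationRing.exists_irreducible v.toValuationSubring
  obtain ⟨u, hu⟩ := v.exists_unit_mul_zpow hf hπ
  constructor
  · intro h
    have := v.adicValuation_coe ⟨f, h⟩
    have hle : v.adicValuation f ≤ exp 0 :=
      this.le.trans (v.heightOneSpectrum.intValuation_le_one ⟨f, h⟩)
    rw [adicValuation_eq_exp v hf, exp_le_exp] at hle
    linarith
  · intro h
    lift v.ord f to ℕ using h with n hn
    rw [hu, zpow_natCast]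
    exact mul_mem (u : v.toValuationSubring).2 (pow_mem π.2 n)

/-- A function is in the valuation ring exactly when its order is nonnegative. -/
theorem mem_iff {f : F} : f ∈ v.toValuationSubring ↔ 0 ≤ v.ord f := by
  rcases eq_or_ne f 0 with rfl | hf
  · simp
  · exact mem_iff_ord_nonneg v hf

/-- Negation keeps the order. -/
theorem ord_neg (f : F) : v.ord (-f) = v.ord f := by
  simp [Place.ord, Valuation.map_neg]

/-- The order of a quotient is the difference of the orders. -/
theorem ord_div {f g : F} (hf : f ≠ 0) (hg : g ≠ 0) : v.ord (f / g) = v.ord f - v.ord g := by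
  rw [div_eq_mul_inv, v.ord_mul hf (inv_ne_zero hg), v.ord_inv, sub_eq_add_neg]

/-- The order of a power. -/
theorem ord_pow (f : F) (n : ℕ) : v.ord (f ^ n) = n * v.ord f := by
  simpa using v.ord_zpow f n

/-- The order of a nonzero sum is at least the smaller order. -/
theorem min_ord_le {f g : F} (hfg : f + g ≠ 0) :
    min (v.ord f) (v.ord g) ≤ v.ord (f + g) := by
  rcases eq_or_ne f 0 with rfl | hf
  · simp
  rcases eq_or_ne g 0 with rfl | hg
  · simp
  have h := Valuation.map_add v.adicValuation f g
  rw [adicValuation_eq_exp v hf, adicValuation_eq_exp v hg, adicValuation_eq_exp v hfg,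
    le_max_iff, exp_le_exp, exp_le_exp] at h
  omega

/-- The term of strictly smaller order gives the order of a sum. -/
theorem ord_add_eq_of_lt {f g : F} (hf : f ≠ 0) (h : g = 0 ∨ v.ord f < v.ord g) :
    v.ord (f + g) = v.ord f := by
  rcases eq_or_ne g 0 with rfl | hg
  · simp
  replace h : v.ord f < v.ord g := h.resolve_left hg
  have hlt : v.adicValuation g < v.adicValuation f := by
    rw [adicValuation_eq_exp v hf, adicValuation_eq_exp v hg, exp_lt_exp]; omega
  have := Valuation.map_add_eq_of_lt_left v.adicValuation hlt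
  unfold Place.ord
  rw [this]

/-- Constants have order zero. -/
theorem ord_algebraMap (a : K) : v.ord (algebraMap K F a) = 0 := by
  rcases eq_or_ne a 0 with rfl | ha
  · simp
  have h1 := (mem_iff v).mp (v.algebraMap_mem' a)
  have h2 := (mem_iff v).mp (v.algebraMap_mem' a⁻¹)
  rw [map_inv₀, v.ord_inv] at h2
  omega

/-- A function of nonzero order is transcendental over the constants. -/
theorem transcendental_of_ord_ne_zero {f : F} (hf : v.ord f ≠ 0) : Transcendental K f := by
  intro halg
  have hf0 : f ≠ 0 := fun h => hf (by simp [h])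
  wlog hpos : 0 < v.ord f generalizing f with H
  · refine H (f := f⁻¹) (by simpa [v.ord_inv] using hf) halg.inv (inv_ne_zero hf0) ?_
    rw [v.ord_inv]; omega
  have hint : IsIntegral K f := halg.isIntegral
  have hc : (minpoly K f).coeff 0 ≠ 0 := minpoly.coeff_zero_ne_zero hint hf0
  have h := Polynomial.aeval_def f (minpoly K f)
  have key : f * Polynomial.aeval f (minpoly K f).divX
      + algebraMap K F ((minpoly K f).coeff 0) = 0 := by
    have := congrArg (Polynomial.aeval f) (Polynomial.X_mul_divX_add (minpoly K f))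
    rw [map_add, map_mul, Polynomial.aeval_X, Polynomial.aeval_C, minpoly.aeval] at this
    exact this
  set r := Polynomial.aeval f (minpoly K f).divX with hr
  have hr0 : r ≠ 0 := by
    intro h0; rw [h0, mul_zero, zero_add] at key
    exact hc ((map_eq_zero _).mp key)
  have hrmem : r ∈ v.toValuationSubring := by
    have : f ∈ v.toValuationSubring := (mem_iff v).mpr hpos.le
    rw [hr, Polynomial.aeval_eq_sum_range]
    exact sum_mem fun i _ => by
      rw [Algebra.smul_def]; exact mul_mem (v.algebraMap_mem' _) (pow_mem this i)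
  have h2 : f * r = -algebraMap K F ((minpoly K f).coeff 0) := eq_neg_of_add_eq_zero_left key
  have h3 := congrArg v.ord h2
  rw [v.ord_mul hf0 hr0, ord_neg, ord_algebraMap] at h3
  have := (mem_iff v).mp hrmem
  omega

/-- A function which is additive and kills the `v`-units is a multiple of `v.ord`. -/
theorem eq_ord_mul (ν : F → ℤ) (hmul : ∀ f g, f ≠ 0 → g ≠ 0 → ν (f * g) = ν f + ν g)
    (hunit : ∀ f, f ≠ 0 → v.ord f = 0 → ν f = 0)
    {π : F} (hπ0 : π ≠ 0) (hπ : v.ord π = 1) {f : F} (hf : f ≠ 0) :
    ν f = v.ord f * ν π := by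
  have hpow : ∀ n : ℤ, ν (π ^ n) = n * ν π := by
    intro n
    have h1 : ν 1 = 0 := by
      have := hmul 1 1 one_ne_zero one_ne_zero
      rw [one_mul] at this; omega
    induction n using Int.induction_on with
    | zero => simpa using h1
    | succ k ih =>
      rw [zpow_add_one₀ hπ0, hmul _ _ (zpow_ne_zero _ hπ0) hπ0, ih]; ring
    | pred k ih =>
      have := hmul (π ^ (-(k : ℤ) - 1)) π (zpow_ne_zero _ hπ0) hπ0
      rw [← zpow_add_one₀ hπ0, sub_add_cancel, ih] at this
      linarith
  set u := f / π ^ v.ord f with hu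
  have hu0 : u ≠ 0 := div_ne_zero hf (zpow_ne_zero _ hπ0)
  have hordu : v.ord u = 0 := by
    rw [hu, ord_div v hf (zpow_ne_zero _ hπ0), v.ord_zpow, hπ]; ring
  have hfu : f = u * π ^ v.ord f := (div_mul_cancel₀ _ (zpow_ne_zero _ hπ0)).symm
  conv_lhs => rw [hfu]
  rw [hmul _ _ hu0 (zpow_ne_zero _ hπ0), hunit u hu0 hordu, hpow, zero_add]

/-- A place is determined by its valuation ring, ordered by inclusion. -/
theorem ord_eq_of_le {v w : Place K F}
    (h : ∀ f : F, 0 ≤ v.ord f → 0 ≤ w.ord f) : v = w := by
  obtain ⟨π, hπ0, hπ⟩ := exists_uniformizer v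
  obtain ⟨σ, hσ0, hσ⟩ := exists_uniformizer w
  have hunit : ∀ f : F, f ≠ 0 → v.ord f = 0 → w.ord f = 0 := by
    intro f _ hf
    have h1 := h f hf.ge
    have h2 := h f⁻¹ (by rw [v.ord_inv]; omega)
    rw [w.ord_inv] at h2
    omega
  have key := fun (f : F) (hf : f ≠ 0) =>
    eq_ord_mul v (fun g => w.ord g) (fun a b => w.ord_mul) hunit hπ0 hπ hf
  have h1 := key σ hσ0
  simp only [hσ] at h1
  have hπw : w.ord π = 1 := by
    have hd : w.ord π ∣ 1 := ⟨v.ord σ, by rw [mul_comm]; exact h1⟩
    have hnn := h π (by omega)
    exact Int.eq_one_of_dvd_one hnn hd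
  apply Place.ext
  ext f
  rw [mem_iff, mem_iff]
  rcases eq_or_ne f 0 with rfl | hf
  · simp
  · have := key f hf
    simp only [hπw, mul_one] at this
    rw [this]

end Fermat.Agent.FFPlaces
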