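import Fermat.Agent.FFPlaces.Basic
import Mathlib.RingTheory.DedekindDomain.IntegralClosure
import Mathlib.RingTheory.RamificationInertia.Basic
import Mathlib.FieldTheory.IsAlgClosed.Basic
import Mathlib.RingTheory.Polynomial.Basic

/-!
# The center of a place on the integral closure of `K[t]`

Places of a finite extension `F` of the rational function field `Kt = Frac K[X]` that are
nonnegative on `t = X`, via the integral closure `B` of `K[X]` in `F`.
-/

set_option autoImplicit false

noncomputable section

open WithZero AlgebraicCurve IsDedekindDomain Polynomial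

namespace Fermat.Agent.FFPlaces

variable (K F Kt : Type*) [Field K] [Field F] [Field Kt] [Algebra K F]
  [Algebra K[X] F] [IsScalarTower K K[X] F]
  [Algebra K[X] Kt] [IsFractionRing K[X] Kt] [Algebra Kt F] [IsScalarTower K[X] Kt F]
  [FiniteDimensional Kt F] [Algebra.IsSeparable Kt F]

/-- The element `t` of `F`. -/
abbrev tOf : F := algebraMap K[X] F Polynomial.X

/-- The integral closure of `K[t]` in `F`. -/
abbrev Ring₀ : Type _ := ↥(integralClosure K[X] F)

omit [Algebra K F] [IsScalarTower K K[X] F] in
include Kt in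
/-- The integral closure of `K[t]` is a Dedekind domain. -/
theorem ring₀_isDedekind : IsDedekindDomain (Ring₀ K F) :=
  IsIntegralClosure.isDedekindDomain K[X] Kt F (Ring₀ K F)

omit [Algebra K F] [IsScalarTower K K[X] F] [Algebra.IsSeparable Kt F] in
include Kt in
/-- `F` is the fraction field of the integral closure of `K[t]`. -/
theorem ring₀_isFractionRing : IsFractionRing (Ring₀ K F) F :=
  integralClosure.isFractionRing_of_finite_extension Kt F

omit [Algebra K F] [IsScalarTower K K[X] F] in
include Kt in
/-- The integral closure of `K[t]` is finite over `K[t]`. -/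
theorem ring₀_finite : Module.Finite K[X] (Ring₀ K F) :=
  IsIntegralClosure.finite K[X] Kt F (Ring₀ K F)

omit [Algebra K F] [IsScalarTower K K[X] F] [FiniteDimensional Kt F] [Algebra.IsSeparable Kt F] in
include Kt in
/-- `K[t]` embeds in `F`. -/
theorem faithful : FaithfulSMul K[X] F :=
  (faithfulSMul_iff_algebraMap_injective K[X] F).mpr <| by
    rw [IsScalarTower.algebraMap_eq K[X] Kt F]
    exact (algebraMap Kt F).injective.comp (IsFractionRing.injective K[X] Kt)

omit [Algebra K F] [IsScalarTower K K[X] F] in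
include Kt in
/-- The rank of the integral closure of `K[t]` is the degree of `F` over `K(t)`. -/
theorem ring₀_finrank : Module.finrank K[X] (Ring₀ K F) = Module.finrank Kt F := by
  have := faithful K F Kt
  have : Module.IsTorsionFree K[X] F := Module.isTorsionFree_iff_algebraMap_injective.mpr
    (FaithfulSMul.algebraMap_injective K[X] F)
  exact IsIntegralClosure.rank K[X] Kt F (Ring₀ K F)

theorem aeval_tOf (p : K[X]) : Polynomial.aeval (tOf K F) p = algebraMap K[X] F p := by
  have : (IsScalarTower.toAlgHom K K[X] F) = Polynomial.aeval (tOf K F) :=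
    Polynomial.algHom_ext (by simp)
  exact (congrArg (fun φ => φ p) this).symm

theorem ord_algebraMap_nonneg (v : Place K F) (hv : 0 ≤ v.ord (tOf K F)) (p : K[X]) :
    algebraMap K[X] F p ∈ v.toValuationSubring := by
  rw [← aeval_tOf, Polynomial.aeval_eq_sum_range]
  exact sum_mem fun i _ => by
    rw [Algebra.smul_def]
    exact mul_mem (v.algebraMap_mem' _) (pow_mem ((mem_iff v).mpr hv) i)

/-- A place nonnegative on `t` is nonnegative on the integral closure of `K[t]`. -/
theorem coe_mem (v : Place K F) (hv : 0 ≤ v.ord (tOf K F)) (b : Ring₀ K F) :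
    (b : F) ∈ v.toValuationSubring := by
  obtain ⟨p, hpm, hp⟩ := b.2
  by_contra hb
  have hb0 : (b : F) ≠ 0 := fun h => hb (h ▸ zero_mem _)
  rw [mem_iff, not_le] at hb
  have hdeg : p.natDegree ≠ 0 := by
    intro h0
    rw [hpm.natDegree_eq_zero.mp h0] at hp
    simp at hp
  have hsum : (b : F) ^ p.natDegree
      + ∑ i ∈ Finset.range p.natDegree, algebraMap K[X] F (p.coeff i) * (b : F) ^ i = 0 := by
    rw [← hp, Polynomial.eval₂_eq_sum_range, Finset.sum_range_succ, hpm.coeff_natDegree, map_one,
      one_mul]
    exact add_comm _ _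
  set s := ∑ i ∈ Finset.range p.natDegree, algebraMap K[X] F (p.coeff i) * (b : F) ^ i with hs
  have hval : v.adicValuation s < v.adicValuation ((b : F) ^ p.natDegree) := by
    refine Valuation.map_sum_lt v.adicValuation (by simp [hb0]) fun i hi => ?_
    rw [Finset.mem_range] at hi
    rcases eq_or_ne (algebraMap K[X] F (p.coeff i)) 0 with h | h
    · rw [h, zero_mul, map_zero]
      exact zero_lt_iff.mpr (v.adicValuation_ne_zero (pow_ne_zero _ hb0))
    rw [adicValuation_eq_exp v (mul_ne_zero h (pow_ne_zero _ hb0)),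
      adicValuation_eq_exp v (pow_ne_zero _ hb0), exp_lt_exp, v.ord_mul h (pow_ne_zero _ hb0),
      ord_pow, ord_pow]
    have h1 := (mem_iff v).mp (ord_algebraMap_nonneg K F v hv (p.coeff i))
    have h2 : (i : ℤ) + 1 ≤ (p.natDegree : ℤ) := by exact_mod_cast hi
    nlinarith
  have := Valuation.map_add_eq_of_lt_left v.adicValuation hval
  rw [hsum, map_zero] at this
  exact absurd this.symm (v.adicValuation_ne_zero (pow_ne_zero _ hb0))

section WithDedekind

variable [IsDedekindDomain (Ring₀ K F)] [IsFractionRing (Ring₀ K F) F]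
  [Module.Finite K[X] (Ring₀ K F)]

/-- The place attached to a nonzero prime of `Ring₀`. -/
def placeOf (P : HeightOneSpectrum (Ring₀ K F)) : Place K F :=
  Place.ofHeightOneSpectrum (R := Ring₀ K F) P

omit [Module.Finite K[X] (Ring₀ K F)] in
/-- Nonnegative order at the place of a prime, through its valuation. -/
theorem placeOf_nonneg_iff (P : HeightOneSpectrum (Ring₀ K F)) {f : F} :
    0 ≤ (placeOf K F P).ord f ↔ P.valuation F f ≤ 1 := by
  rw [← mem_iff]
  exact Valuation.mem_valuationSubring_iff _ _

omit [Module.Finite K[X] (Ring₀ K F)] in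
/-- The order at the place of a prime, through its valuation. -/
theorem ord_placeOf (P : HeightOneSpectrum (Ring₀ K F)) {f : F} (hf : f ≠ 0) :
    (placeOf K F P).ord f = -WithZero.log (P.valuation F f) := by
  obtain ⟨π, hπ0, hπ⟩ := exists_uniformizer (placeOf K F P)
  have hne : ∀ g : F, g ≠ 0 → P.valuation F g ≠ 0 := fun g hg => (Valuation.ne_zero_iff _).mpr hg
  have key := fun (g : F) (hg : g ≠ 0) => eq_ord_mul (placeOf K F P)
    (fun g => -WithZero.log (P.valuation F g))
    (fun a b ha hb => by simp only [map_mul, WithZero.log_mul (hne a ha) (hne b hb)]; ring)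
    (fun a ha h0 => by
      have h1 := (placeOf_nonneg_iff K F P (f := a)).mp h0.ge
      have h2 := (placeOf_nonneg_iff K F P (f := a⁻¹)).mp (by rw [Place.ord_inv]; omega)
      rw [map_inv₀, inv_le_one₀ (zero_lt_iff.mpr (hne a ha))] at h2
      simp [le_antisymm h1 h2])
    hπ0 hπ hg
  have hnn : 0 ≤ -WithZero.log (P.valuation F π) := by
    have h1 := (placeOf_nonneg_iff K F P (f := π)).mp (by omega)
    rw [← exp_log (hne π hπ0), ← exp_zero, exp_le_exp] at h1
    omega
  obtain ⟨σ, hσ⟩ := P.valuation_exists_uniformizer F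
  have hσ0 : σ ≠ 0 := fun h => by
    rw [h, map_zero] at hσ; exact exp_ne_zero hσ.symm
  have h1 := key σ hσ0
  simp only [hσ, log_exp, neg_neg] at h1
  have h2 : -WithZero.log (P.valuation F π) = 1 :=
    Int.eq_one_of_dvd_one hnn ⟨_, by rw [mul_comm]; exact h1⟩
  have := key f hf
  simp only [h2, mul_one] at this
  exact this.symm

omit [Module.Finite K[X] (Ring₀ K F)] in
/-- An element has positive order at the place of a prime exactly when it lies in the prime. -/
theorem placeOf_pos_iff (P : HeightOneSpectrum (Ring₀ K F)) {b : Ring₀ K F} (hb : b ≠ 0) :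
    0 < (placeOf K F P).ord (b : F) ↔ b ∈ P.asIdeal := by
  have hb' : (b : F) ≠ 0 := by simpa using hb
  rw [ord_placeOf K F P hb', ← P.valuation_lt_one_iff_mem (K := F)]
  show _ ↔ P.valuation F (b : F) < 1
  conv_rhs => rw [← exp_log (((P.valuation F).ne_zero_iff).mpr hb'), ← exp_zero, exp_lt_exp]
  omega

omit [Module.Finite K[X] (Ring₀ K F)] in
/-- `t` has nonnegative order at the place of a prime. -/
theorem tOf_ord_nonneg (P : HeightOneSpectrum (Ring₀ K F)) :
    0 ≤ (placeOf K F P).ord (tOf K F) :=
  (placeOf_nonneg_iff K F P).mpr (P.valuation_le_one (algebraMap K[X] (Ring₀ K F) Polynomial.X))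

/-- The ideal of elements of `Ring₀` of positive order at `v`. -/
def centerIdeal (v : Place K F) (hv : 0 ≤ v.ord (tOf K F)) : Ideal (Ring₀ K F) where
  carrier := {b : Ring₀ K F | v.adicValuation (b : F) < 1}
  zero_mem' := by simp
  add_mem' {a b} ha hb := by
    have := lt_of_le_of_lt (Valuation.map_add v.adicValuation (a : F) (b : F)) (max_lt ha hb)
    exact this
  smul_mem' c b hb := by
    show v.adicValuation ((c : F) * (b : F)) < 1
    rw [map_mul]
    refine lt_of_le_of_lt (mul_le_of_le_one_left' ?_) hb
    have := coe_mem K F v hv c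
    rcases eq_or_ne (c : F) 0 with h | h
    · simp [h]
    rw [adicValuation_eq_exp v h, ← exp_zero, exp_le_exp]
    have := (mem_iff v).mp this
    omega

omit [IsDedekindDomain (Ring₀ K F)] [IsFractionRing (Ring₀ K F) F]
  [Module.Finite K[X] (Ring₀ K F)] in
/-- The center consists of zero and the elements of positive order. -/
theorem mem_centerIdeal_iff (v : Place K F) (hv : 0 ≤ v.ord (tOf K F)) {b : Ring₀ K F} :
    b ∈ centerIdeal K F v hv ↔ b = 0 ∨ 0 < v.ord (b : F) := by
  show v.adicValuation (b : F) < 1 ↔ _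
  rcases eq_or_ne b 0 with rfl | hb
  · simp
  · have hb' : (b : F) ≠ 0 := by simpa using hb
    rw [adicValuation_eq_exp v hb', ← exp_zero, exp_lt_exp]
    simp [hb]

omit [IsDedekindDomain (Ring₀ K F)] [IsFractionRing (Ring₀ K F) F]
  [Module.Finite K[X] (Ring₀ K F)] in
/-- The center is a prime ideal. -/
theorem centerIdeal_isPrime (v : Place K F) (hv : 0 ≤ v.ord (tOf K F)) :
    (centerIdeal K F v hv).IsPrime := by
  refine ⟨fun h => ?_, fun {a b} hab => ?_⟩
  · have : (1 : Ring₀ K F) ∈ centerIdeal K F v hv := h ▸ Submodule.mem_top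
    rw [mem_centerIdeal_iff] at this
    simp at this
  · rw [mem_centerIdeal_iff] at hab
    simp only [mem_centerIdeal_iff]
    rcases eq_or_ne a 0 with ha | ha
    · exact Or.inl (Or.inl ha)
    rcases eq_or_ne b 0 with hb | hb
    · exact Or.inr (Or.inl hb)
    have h := hab.resolve_left (mul_ne_zero ha hb)
    rw [show ((a * b : Ring₀ K F) : F) = (a : F) * b from rfl,
      v.ord_mul (by simpa using ha) (by simpa using hb)] at h
    have := (mem_iff v).mp (coe_mem K F v hv a)
    have := (mem_iff v).mp (coe_mem K F v hv b)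
    omega

omit [IsDedekindDomain (Ring₀ K F)] [Module.Finite K[X] (Ring₀ K F)] in
theorem centerIdeal_ne_bot (v : Place K F) (hv : 0 ≤ v.ord (tOf K F)) :
    centerIdeal K F v hv ≠ ⊥ := by
  intro h
  obtain ⟨π, hπ0, hπ⟩ := exists_uniformizer v
  obtain ⟨a, s, hs, hf⟩ := IsFractionRing.div_surjective (A := Ring₀ K F) π
  have hs0 : s ≠ 0 := nonZeroDivisors.ne_zero hs
  have ha0 : a ≠ 0 := fun h0 => hπ0 (by simp [← hf, h0])
  have key : ∀ b : Ring₀ K F, b ≠ 0 → v.ord (b : F) = 0 := by
    intro b hb
    have h1 : b ∉ centerIdeal K F v hv := by simpa [h] using hb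
    rw [mem_centerIdeal_iff] at h1
    have := (mem_iff v).mp (coe_mem K F v hv b)
    simp only [hb, false_or] at h1
    omega
  have := ord_div v (f := (a : F)) (g := (s : F)) (by simpa using ha0) (by simpa using hs0)
  rw [key a ha0, key s hs0, show (a : F) / (s : F) = π from hf, hπ] at this
  omega

/-- The center of a place that is nonnegative on `t`. -/
def center (v : Place K F) (hv : 0 ≤ v.ord (tOf K F)) : HeightOneSpectrum (Ring₀ K F) :=
  ⟨centerIdeal K F v hv, centerIdeal_isPrime K F v hv, centerIdeal_ne_bot K F v hv⟩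

omit [Module.Finite K[X] (Ring₀ K F)] in
/-- The place of the center of `v` is `v`. -/
theorem placeOf_center (v : Place K F) (hv : 0 ≤ v.ord (tOf K F)) :
    placeOf K F (center K F v hv) = v := by
  refine ord_eq_of_le fun f hf => ?_
  rcases eq_or_ne f 0 with rfl | hf0
  · simp
  obtain ⟨a, ⟨s, hs⟩, hfs⟩ := (center K F v hv).exists_primeCompl_mul_eq_of_integer (K := F) f
    ((placeOf_nonneg_iff K F _).mp hf)
  have hs' : ¬ s ∈ centerIdeal K F v hv := hs
  rw [mem_centerIdeal_iff, not_or] at hs'
  have hs0 : (s : F) ≠ 0 := by simpa using hs'.1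
  have hords : v.ord (s : F) = 0 := by
    have := (mem_iff v).mp (coe_mem K F v hv s)
    omega
  have h1 := (mem_iff v).mp (coe_mem K F v hv a)
  have h2 := congrArg v.ord hfs
  simp only [show ∀ b : Ring₀ K F, algebraMap (Ring₀ K F) F b = (b : F) from fun _ => rfl] at h2
  rw [v.ord_mul hf0 hs0, hords] at h2
  omega

omit [Module.Finite K[X] (Ring₀ K F)] in
/-- The center of the place of a prime is that prime. -/
theorem center_placeOf (P : HeightOneSpectrum (Ring₀ K F)) :
    center K F (placeOf K F P) (tOf_ord_nonneg K F P) = P := by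
  ext b
  show b ∈ centerIdeal K F (placeOf K F P) (tOf_ord_nonneg K F P) ↔ _
  rw [mem_centerIdeal_iff]
  rcases eq_or_ne b 0 with rfl | hb
  · simp
  · simp [hb, placeOf_pos_iff K F P hb]

end WithDedekind

end Fermat.Agent.FFPlaces
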