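import Fermat.Agent.FFPlaces.Center

/-!
# The fibre of a function over zero

The fibre of `t : F → ℙ¹` over `0`: residue degree one and `∑ ord_v t = [F : K(t)]`.
-/

set_option autoImplicit false

noncomputable section

open WithZero AlgebraicCurve IsDedekindDomain Polynomial

namespace Fermat.Agent.FFPlaces

variable (K F Kt : Type*) [Field K] [Field F] [Field Kt] [Algebra K F]
  [Algebra K[X] F] [IsScalarTower K K[X] F]
  [Algebra K[X] Kt] [IsFractionRing K[X] Kt] [Algebra Kt F] [IsScalarTower K[X] Kt F]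
  [FiniteDimensional Kt F] [Algebra.IsSeparable Kt F]

/-- The image of `t` in `Ring₀`. -/
abbrev tInt : Ring₀ K F := algebraMap K[X] (Ring₀ K F) Polynomial.X

omit [Algebra K F] [IsScalarTower K K[X] F] in
theorem exists_const_sub_mem [IsAlgClosed K] (P : Ideal (Ring₀ K F)) [P.IsPrime]
    (ht : tInt K F ∈ P) (b : Ring₀ K F) :
    ∃ c : K, b - algebraMap K[X] (Ring₀ K F) (Polynomial.C c) ∈ P := by
  let ψ : K →+* Ring₀ K F ⧸ P :=
    ((Ideal.Quotient.mk P).comp (algebraMap K[X] (Ring₀ K F))).comp Polynomial.C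
  have hφ : (Ideal.Quotient.mk P).comp (algebraMap K[X] (Ring₀ K F))
      = ψ.comp Polynomial.constantCoeff := by
    refine Polynomial.ringHom_ext (fun a => ?_) ?_
    · rw [RingHom.comp_apply, RingHom.comp_apply, Polynomial.constantCoeff_apply,
        Polynomial.coeff_C_zero]
      rfl
    · rw [RingHom.comp_apply, RingHom.comp_apply, Polynomial.constantCoeff_apply,
        Polynomial.coeff_X_zero, map_zero]
      exact Ideal.Quotient.eq_zero_iff_mem.mpr ht
  obtain ⟨q, hqm, hq⟩ := (IsIntegralClosure.isIntegral_algebra K[X] F (A := Ring₀ K F)).isIntegral b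
  set q₀ := q.map Polynomial.constantCoeff with hq₀
  have hq₀m : q₀.Monic := hqm.map _
  have h0 : q₀.eval₂ ψ (Ideal.Quotient.mk P b) = 0 := by
    rw [hq₀, Polynomial.eval₂_map, ← hφ, ← Polynomial.hom_eval₂, hq, map_zero]
  have hprod := (IsAlgClosed.splits q₀).eq_prod_roots_of_monic hq₀m
  rw [hprod] at h0
  change (Polynomial.eval₂RingHom ψ (Ideal.Quotient.mk P b)) _ = (0 : Ring₀ K F ⧸ P) at h0
  rw [map_multiset_prod, Multiset.map_map] at h0
  replace h0 := Multiset.mem_map.mp ((Multiset.prod_eq_zero_iff (M₀ := Ring₀ K F ⧸ P)).mp h0)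
  obtain ⟨c, -, hc⟩ := h0
  refine ⟨c, ?_⟩
  rw [← Ideal.Quotient.eq_zero_iff_mem]
  rw [Function.comp_apply, Polynomial.coe_eval₂RingHom, Polynomial.eval₂_sub, Polynomial.eval₂_X,
      Polynomial.eval₂_C] at hc
  rw [map_sub]
  exact hc

variable [IsDedekindDomain (Ring₀ K F)] [IsFractionRing (Ring₀ K F) F]
  [Module.Finite K[X] (Ring₀ K F)]

omit [Module.Finite K[X] (Ring₀ K F)] in
/-- At a zero of `t` a regular function is congruent to a constant. -/
theorem exists_ord_sub_pos [IsAlgClosed K] (v : Place K F) (hv : 0 < v.ord (tOf K F)) {f : F}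
    (hf : 0 ≤ v.ord f) : ∃ c : K, f = algebraMap K F c ∨ 0 < v.ord (f - algebraMap K F c) := by
  set P := center K F v hv.le with hP
  have htP : tInt K F ∈ P.asIdeal := by
    show tInt K F ∈ centerIdeal K F v hv.le
    rw [mem_centerIdeal_iff]
    exact Or.inr hv
  have := P.isPrime
  have hf' : P.valuation F f ≤ 1 := (placeOf_nonneg_iff K F P).mp (by rwa [hP, placeOf_center])
  obtain ⟨a, ⟨s, hs⟩, hfs⟩ := P.exists_primeCompl_mul_eq_of_integer (K := F) f hf'
  obtain ⟨α, hα⟩ := exists_const_sub_mem K F P.asIdeal htP a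
  obtain ⟨β, hβ⟩ := exists_const_sub_mem K F P.asIdeal htP s
  have hβ0 : β ≠ 0 := by
    intro h
    rw [h, map_zero, map_zero, sub_zero] at hβ
    exact hs hβ
  have hC : ∀ c : K,
      ((algebraMap K[X] (Ring₀ K F) (Polynomial.C c) : Ring₀ K F) : F) = algebraMap K F c :=
    fun c => by
      show algebraMap K[X] F (Polynomial.C c) = _
      rw [Polynomial.C_eq_algebraMap, ← IsScalarTower.algebraMap_apply]
  set w : Ring₀ K F := a * algebraMap K[X] (Ring₀ K F) (Polynomial.C β)
      - s * algebraMap K[X] (Ring₀ K F) (Polynomial.C α) with hw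
  have hwP : w ∈ P.asIdeal := by
    have : w = (a - algebraMap K[X] (Ring₀ K F) (Polynomial.C α))
          * algebraMap K[X] (Ring₀ K F) (Polynomial.C β)
        - (s - algebraMap K[X] (Ring₀ K F) (Polynomial.C β))
          * algebraMap K[X] (Ring₀ K F) (Polynomial.C α) := by rw [hw]; ring
    rw [this]
    exact sub_mem (Ideal.mul_mem_right _ _ hα) (Ideal.mul_mem_right _ _ hβ)
  have hs' : ¬ s ∈ centerIdeal K F v hv.le := hs
  rw [mem_centerIdeal_iff, not_or] at hs'
  have hs0 : (s : F) ≠ 0 := by simpa using hs'.1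
  have hsord : v.ord (s : F) = 0 := by
    have := (mem_iff v).mp (coe_mem K F v hv.le s)
    omega
  have hβF : algebraMap K F β ≠ 0 := by simpa using hβ0
  have key : (f - algebraMap K F (α / β)) * ((s : F) * algebraMap K F β) = (w : F) := by
    have hwF : (w : F) = (a : F) * algebraMap K F β - (s : F) * algebraMap K F α := by
      rw [hw, Subalgebra.coe_sub, Subalgebra.coe_mul, Subalgebra.coe_mul, hC, hC]
    rw [hwF, map_div₀, sub_mul]
    have : f * (s : F) = (a : F) := hfs
    field_simp
    linear_combination (algebraMap K F β) * this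
  refine ⟨α / β, ?_⟩
  rcases eq_or_ne (f - algebraMap K F (α / β)) 0 with h | h
  · exact Or.inl (sub_eq_zero.mp h)
  · right
    have hw0 : w ≠ 0 := by
      intro h0
      rw [h0] at key
      exact mul_ne_zero h (mul_ne_zero hs0 hβF) (by simpa using key)
    have hwpos : 0 < v.ord (w : F) :=
      ((mem_centerIdeal_iff K F v hv.le).mp hwP).resolve_left hw0
    have := congrArg v.ord key
    rw [v.ord_mul h (mul_ne_zero hs0 hβF), v.ord_mul hs0 hβF, hsord, ord_algebraMap] at this
    omega

omit [Module.Finite K[X] (Ring₀ K F)] in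
/-- A zero of `t` has degree one. -/
theorem deg_eq_one [IsAlgClosed K] (v : Place K F) (hv : 0 < v.ord (tOf K F)) : v.deg = 1 := by
  have hsurj : Function.Surjective (algebraMap K v.ResidueField) := by
    intro x
    obtain ⟨⟨f, hf⟩, rfl⟩ := IsLocalRing.residue_surjective x
    obtain ⟨c, hc⟩ := exists_ord_sub_pos K F v hv ((mem_iff v).mp hf)
    refine ⟨c, ?_⟩
    show IsLocalRing.residue v.toValuationSubring (algebraMap K v.toValuationSubring c) = _
    rw [← sub_eq_zero, ← map_sub, IsLocalRing.residue_eq_zero_iff]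
    rcases hc with hc | hc
    · have : algebraMap K v.toValuationSubring c - ⟨f, hf⟩ = 0 := by
        ext; simp [hc]
      rw [this]; exact zero_mem _
    · rw [IsLocalRing.mem_maximalIdeal, mem_nonunits_iff]
      intro hu
      have h1 := v.ord_coe_unit hu.unit
      rw [IsUnit.unit_spec] at h1
      have h2 : ((algebraMap K v.toValuationSubring c - ⟨f, hf⟩ : v.toValuationSubring) : F)
          = -(f - algebraMap K F c) := by simp
      rw [h2, ord_neg] at h1
      omega
  show Module.finrank K v.ResidueField = 1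
  rw [← Module.finrank_self K]
  exact ((AlgEquiv.ofBijective (Algebra.ofId K v.ResidueField)
    ⟨(algebraMap K v.ResidueField).injective, hsurj⟩).toLinearEquiv.finrank_eq).symm

section Sum

/-- The prime `(X)` of `K[X]`. -/
abbrev pX : Ideal K[X] := Ideal.span {Polynomial.X}

theorem pX_isMaximal : (pX K).IsMaximal :=
  PrincipalIdealRing.isMaximal_of_irreducible Polynomial.irreducible_X

omit [Algebra K F] [IsScalarTower K K[X] F] [IsDedekindDomain (Ring₀ K F)]
  [IsFractionRing (Ring₀ K F) F] [Module.Finite K[X] (Ring₀ K F)] in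
theorem mem_primesOver_iff (P : Ideal (Ring₀ K F)) :
    P ∈ (pX K).primesOver (Ring₀ K F) ↔ P.IsPrime ∧ tInt K F ∈ P := by
  have := pX_isMaximal K
  constructor
  · rintro ⟨hP, hlo⟩
    refine ⟨hP, ?_⟩
    have : Polynomial.X ∈ Ideal.under K[X] P := by
      rw [← hlo.over]; exact Ideal.mem_span_singleton_self _
    exact this
  · rintro ⟨hP, ht⟩
    refine ⟨hP, ⟨(pX_isMaximal K).eq_of_le ?_ ?_⟩⟩
    · exact (Ideal.IsPrime.under K[X] P).ne_top
    · rw [Ideal.span_singleton_le_iff_mem]; exact ht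

omit [Algebra K F] [IsScalarTower K K[X] F] [FiniteDimensional Kt F] [Algebra.IsSeparable Kt F]
  [IsDedekindDomain (Ring₀ K F)] [IsFractionRing (Ring₀ K F) F]
  [Module.Finite K[X] (Ring₀ K F)] in
include Kt in
/-- `t` is nonzero in the integral closure of `K[t]`. -/
theorem tInt_ne_zero : tInt K F ≠ 0 := by
  have := faithful K F Kt
  intro h
  have : algebraMap K[X] F Polynomial.X = 0 := congrArg Subtype.val h
  exact Polynomial.X_ne_zero (FaithfulSMul.algebraMap_injective K[X] F
      (this.trans (map_zero _).symm))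

omit [Algebra K F] [IsScalarTower K K[X] F] [IsDedekindDomain (Ring₀ K F)]
  [IsFractionRing (Ring₀ K F) F] [Module.Finite K[X] (Ring₀ K F)] in
theorem map_pX : (pX K).map (algebraMap K[X] (Ring₀ K F)) = Ideal.span {tInt K F} := by
  rw [Ideal.map_span, Set.image_singleton]

omit [Algebra K F] [IsScalarTower K K[X] F] [FiniteDimensional Kt F] [Algebra.IsSeparable Kt F]
  [IsDedekindDomain (Ring₀ K F)] [IsFractionRing (Ring₀ K F) F]
  [Module.Finite K[X] (Ring₀ K F)] in
include Kt in
theorem primesOver_ne_bot {P : Ideal (Ring₀ K F)} (hP : P ∈ (pX K).primesOver (Ring₀ K F)) :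
    P ≠ ⊥ :=
  fun h => tInt_ne_zero K F Kt (by simpa [h] using ((mem_primesOver_iff K F P).mp hP).2)

/-- Primes over `(X)` are exactly the places with `0 < ord t`. -/
def primesOverEquiv :
    (pX K).primesOver (Ring₀ K F) ≃ {v : Place K F // 0 < v.ord (tOf K F)} where
  toFun P := ⟨placeOf K F ⟨P.1, P.2.1, primesOver_ne_bot K F Kt P.2⟩,
    (placeOf_pos_iff K F _ (tInt_ne_zero K F Kt)).mpr ((mem_primesOver_iff K F P.1).mp P.2).2⟩
  invFun v := ⟨centerIdeal K F v.1 v.2.le, (mem_primesOver_iff K F _).mpr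
    ⟨centerIdeal_isPrime K F v.1 v.2.le, (mem_centerIdeal_iff K F v.1 v.2.le).mpr (Or.inr v.2)⟩⟩
  left_inv P := Subtype.ext (congrArg HeightOneSpectrum.asIdeal
    (center_placeOf K F ⟨P.1, P.2.1, primesOver_ne_bot K F Kt P.2⟩))
  right_inv v := Subtype.ext (placeOf_center K F v.1 v.2.le)

omit [FiniteDimensional Kt F] [Algebra.IsSeparable Kt F] [Module.Finite K[X] (Ring₀ K F)] in
include Kt in
/-- `t` has finitely many zeros. -/
theorem finite_pos : Finite {v : Place K F // 0 < v.ord (tOf K F)} := by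
  have := pX_isMaximal K
  have := faithful K F Kt
  have : Finite ((pX K).primesOver (Ring₀ K F)) :=
    (IsDedekindDomain.primesOver_finite (pX K) (Ring₀ K F)).to_subtype
  exact Finite.of_equiv _ (primesOverEquiv K F Kt)

omit [Module.Finite K[X] (Ring₀ K F)] in
theorem ord_tOf_eq_multiplicity (P : HeightOneSpectrum (Ring₀ K F)) (h0 : tInt K F ≠ 0) :
    (placeOf K F P).ord (tOf K F) = (multiplicity P.asIdeal (Ideal.span {tInt K F}) : ℤ) := by
  have h0F : tOf K F ≠ 0 := fun h => h0 (Subtype.ext h)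
  rw [ord_placeOf K F P h0F,
    show tOf K F = algebraMap (Ring₀ K F) F (tInt K F) from rfl, P.valuation_of_algebraMap,
    P.intValuation_eq_exp_neg_multiplicity h0, log_exp, neg_neg]

omit [Algebra K F] [IsScalarTower K K[X] F] [FiniteDimensional Kt F] [Algebra.IsSeparable Kt F]
  [IsDedekindDomain (Ring₀ K F)] [IsFractionRing (Ring₀ K F) F]
  [Module.Finite K[X] (Ring₀ K F)] in
include Kt in
theorem inertia_eq_one [IsAlgClosed K] (q : (pX K).primesOver (Ring₀ K F)) :
    q.1.inertiaDeg K[X] = 1 := by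
  have := pX_isMaximal K
  have := q.2.1
  have := q.2.2
  have : q.1.IsMaximal :=
    Ideal.IsPrime.isMaximal inferInstance (primesOver_ne_bot K F Kt q.2)
  rw [Ideal.inertiaDeg_eq_of_isMaximal (pX K)]
  let : Field (K[X] ⧸ pX K) := Ideal.Quotient.field _
  let : Field (Ring₀ K F ⧸ q.1) := Ideal.Quotient.field _
  have hsurj : Function.Surjective (algebraMap (K[X] ⧸ pX K) (Ring₀ K F ⧸ q.1)) := by
    intro x
    obtain ⟨b, rfl⟩ := Ideal.Quotient.mk_surjective x
    obtain ⟨c, hc⟩ := exists_const_sub_mem K F q.1 ((mem_primesOver_iff K F q.1).mp q.2).2 b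
    exact ⟨Ideal.Quotient.mk _ (Polynomial.C c), (Ideal.Quotient.eq.mpr hc).symm⟩
  rw [← Module.finrank_self (K[X] ⧸ pX K)]
  exact ((AlgEquiv.ofBijective (Algebra.ofId _ _)
    ⟨(algebraMap (K[X] ⧸ pX K) (Ring₀ K F ⧸ q.1)).injective,
      hsurj⟩).toLinearEquiv.finrank_eq).symm

include Kt in
/-- The orders of the zeros of `t` sum to the degree of `F` over `K(t)`. -/
theorem sum_ord_tOf [IsAlgClosed K] [Fintype {v : Place K F // 0 < v.ord (tOf K F)}] :
    ∑ v : {v : Place K F // 0 < v.ord (tOf K F)}, v.1.ord (tOf K F)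
      = (Module.finrank Kt F : ℤ) := by
  have := pX_isMaximal K
  have := faithful K F Kt
  have hinj : Function.Injective (algebraMap K[X] (Ring₀ K F)) := fun a b h =>
    FaithfulSMul.algebraMap_injective K[X] F (congrArg Subtype.val h)
  have : Module.IsTorsionFree K[X] (Ring₀ K F) :=
    Module.isTorsionFree_iff_algebraMap_injective.mpr hinj
  have : Module.Free K[X] (Ring₀ K F) := Module.free_of_finite_type_torsion_free'
  let : Fintype ((pX K).primesOver (Ring₀ K F)) :=
    Fintype.ofEquiv _ (primesOverEquiv K F Kt).symm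
  rw [← ring₀_finrank K F Kt,
    ← Ideal.sum_ramification_inertia_eq_finrank (pX K) (Ring₀ K F), Nat.cast_sum,
    ← (primesOverEquiv K F Kt).sum_comp]
  refine Finset.sum_congr rfl fun q _ => ?_
  have := q.2.1
  have := q.2.2
  rw [inertia_eq_one K F Kt q, mul_one,
    Ideal.IsDedekindDomain.ramificationIdx_eq_multiplicity (pX K) q.1
      (by rw [map_pX K F, Ne, Ideal.span_singleton_eq_bot]; exact tInt_ne_zero K F Kt),
    map_pX K F]
  exact ord_tOf_eq_multiplicity K F _ (tInt_ne_zero K F Kt)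

end Sum

end Fermat.Agent.FFPlaces
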